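import Fermat.Agent.S28.H505.LevelOne

open UpperHalfPlane ModularForm EisensteinSeries Filter Topology MatrixGroups
  SlashInvariantForm SlashInvariantFormClass ModularFormClass CuspFormClass
open scoped PowerSeries.WithPiTopology Manifold

namespace Fermat.Agent.S28.H505

/-- Taylor expansion on the unit disc. -/
theorem hasSum_taylorPS {g : ℂ → ℂ} (hg : DifferentiableOn ℂ g (Metric.ball 0 1)) {q : ℂ}
    (hq : ‖q‖ < 1) : HasSum (fun n : ℕ => (taylorPS g).coeff n * q ^ n) (g q) := by
  have := Complex.hasSum_taylorSeries_on_ball hg (z := q) (by simpa using hq)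
  refine this.congr_fun ?_ |>.mono_left le_rfl
  intro n
  simp only [coeff_taylorPS, sub_zero, smul_eq_mul]
  ring

theorem taylorPS_one : taylorPS (fun _ : ℂ => (1 : ℂ)) = 1 := by
  have := taylorPS_polynomial 1
  simpa using this

theorem eulerFun_ne_zero {q : ℂ} (hq : ‖q‖ < 1) : eulerFun q ≠ 0 := by
  have h := tprod_one_add_ne_zero_of_summable (f := fun n : ℕ => -q ^ (n + 1)) ?_ ?_
  · simpa [eulerFun, sub_eq_add_neg] using h
  · intro i h0
    have : q ^ (i + 1) = 1 := by
      have := eq_neg_of_add_eq_zero_left h0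
      simpa using this.symm
    have h1 : ‖q‖ ^ (i + 1) = 1 := by rw [← norm_pow, this, norm_one]
    have h2 : ‖q‖ ^ (i + 1) < 1 := pow_lt_one₀ (norm_nonneg _) hq (Nat.succ_ne_zero i)
    linarith
  · simpa using (summable_nat_add_iff 1).mpr (summable_geometric_of_lt_one (norm_nonneg _) hq)

/-- `1 / ∏ (1 - qⁿ)²⁴` on the unit disc -/
noncomputable def invEuler24 (q : ℂ) : ℂ := (eulerFun q ^ 24)⁻¹

theorem invEuler24_differentiableOn : DifferentiableOn ℂ invEuler24 (Metric.ball 0 1) := by
  refine DifferentiableOn.inv (eulerFun_differentiableOn.pow 24) fun q hq => ?_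
  exact pow_ne_zero _ (eulerFun_ne_zero (by simpa using hq))

theorem invEuler24_analyticAt : AnalyticAt ℂ invEuler24 0 :=
  invEuler24_differentiableOn.analyticAt (Metric.ball_mem_nhds 0 one_pos)

theorem taylorPS_invEuler24 :
    taylorPS invEuler24 = ModularCurve.dedekindEtaUnitInv.map (Int.castRingHom ℂ) := by
  have h1 : taylorPS invEuler24 * (ModularCurve.etaProd.map (Int.castRingHom ℂ)) ^ 24 = 1 := by
    rw [← taylorPS_eulerFun, ← taylorPS_pow eulerFun_analyticAt,
      ← taylorPS_mul invEuler24_analyticAt (eulerFun_analyticAt.pow 24), ← taylorPS_one]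
    apply taylorPS_congr
    filter_upwards [Metric.ball_mem_nhds (0 : ℂ) one_pos] with q hq
    simp only [Pi.mul_apply, Pi.pow_apply, invEuler24]
    exact inv_mul_cancel₀ (pow_ne_zero _ (eulerFun_ne_zero (by simpa using hq)))
  have h2 : (ModularCurve.etaProd.map (Int.castRingHom ℂ)) ^ 24 *
      ModularCurve.dedekindEtaUnitInv.map (Int.castRingHom ℂ) = 1 := by
    have := congrArg (PowerSeries.map (Int.castRingHom ℂ)) ModularCurve.dedekindEtaUnit_mul_inv
    rwa [ModularCurve.dedekindEtaUnit, map_mul, map_pow, map_one] at this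
  calc taylorPS invEuler24 = taylorPS invEuler24 *
        ((ModularCurve.etaProd.map (Int.castRingHom ℂ)) ^ 24 *
        ModularCurve.dedekindEtaUnitInv.map (Int.castRingHom ℂ)) := by rw [h2, mul_one]
    _ = _ := by rw [← mul_assoc, h1, one_mul]

/-- the formal numerator of `j` over `ℂ` -/
noncomputable def jNumC : PowerSeries ℂ := ModularCurve.jNum.map (Int.castRingHom ℂ)

/-- the function `q ↦ q · j` on the unit disc -/
noncomputable def qjFun (q : ℂ) : ℂ := cuspFunction 1 E₄ q ^ 3 * invEuler24 q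

theorem cuspFunction_E₄_differentiableOn :
    DifferentiableOn ℂ (cuspFunction 1 E₄) (Metric.ball 0 1) := fun q hq =>
  (ModularFormClass.differentiableAt_cuspFunction E₄ one_pos one_mem_strictPeriods_SL
    (by simpa using hq)).differentiableWithinAt

theorem qjFun_differentiableOn : DifferentiableOn ℂ qjFun (Metric.ball 0 1) :=
  (cuspFunction_E₄_differentiableOn.pow 3).mul invEuler24_differentiableOn

theorem taylorPS_qjFun : taylorPS qjFun = jNumC := by
  have hE : AnalyticAt ℂ (cuspFunction 1 E₄) 0 :=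
    cuspFunction_E₄_differentiableOn.analyticAt (Metric.ball_mem_nhds 0 one_pos)
  have : qjFun = (cuspFunction 1 E₄) ^ 3 * invEuler24 := rfl
  rw [this, taylorPS_mul (hE.pow 3) invEuler24_analyticAt, taylorPS_pow hE, taylorPS_invEuler24,
    ← qExpansion_eq_taylorPS, qExpansion_E₄_eq, jNumC, ModularCurve.jNum, map_mul, map_pow]

theorem qjFun_qParam (τ : ℍ) :
    qjFun (Function.Periodic.qParam 1 τ) = Function.Periodic.qParam 1 τ * jFun τ := by
  have hq : ‖Function.Periodic.qParam 1 (τ : ℂ)‖ < 1 :=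
    Function.Periodic.norm_qParam_lt_one one_pos τ.im_pos
  have hq0 : Function.Periodic.qParam 1 (τ : ℂ) ≠ 0 := Function.Periodic.qParam_ne_zero _
  have h1 : cuspFunction 1 E₄ (Function.Periodic.qParam 1 τ) = E₄ τ :=
    SlashInvariantFormClass.eq_cuspFunction E₄ τ one_mem_strictPeriods_SL one_ne_zero
  have h2 : ModularForm.discriminant τ =
      Function.Periodic.qParam 1 τ * eulerFun (Function.Periodic.qParam 1 τ) ^ 24 := by
    rw [discriminant_eq_q_prod, eulerFun, (multipliable_one_sub_pow hq).tprod_pow 24]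
  have h3 := eulerFun_ne_zero hq
  rw [qjFun, jFun, h1, h2, invEuler24]
  field_simp

/-- (B3, power-series form) `q · j(τ) = Σ_{n ≥ 0} jNum_n qⁿ`. -/
theorem hasSum_qParam_mul_jFun (τ : ℍ) :
    HasSum (fun n : ℕ => jNumC.coeff n * Function.Periodic.qParam 1 τ ^ n)
      (Function.Periodic.qParam 1 τ * jFun τ) := by
  rw [← qjFun_qParam, ← taylorPS_qjFun]
  exact hasSum_taylorPS qjFun_differentiableOn
    (Function.Periodic.norm_qParam_lt_one one_pos τ.im_pos)

/-- From a convergent power series to a convergent Laurent series (shift by `q ^ k`). -/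
theorem hasSum_laurent_of_hasSum_powerSeries (ψ : PowerSeries ℂ) (k : ℤ) {q s : ℂ} (hq : q ≠ 0)
    (h : HasSum (fun n : ℕ => ψ.coeff n * q ^ n) s) :
    HasSum (fun n : ℤ =>
      (HahnSeries.single k (1 : ℂ) * HahnSeries.ofPowerSeries ℤ ℂ ψ).coeff n * q ^ n)
      (q ^ k * s) := by
  have hinj : Function.Injective (fun n : ℕ => (n : ℤ) + k) := fun a b hab => by
    simpa using hab
  refine (Function.Injective.hasSum_iff hinj ?_).mp ?_
  · intro n hn
    rw [HahnSeries.coeff_single_mul, one_mul]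
    have : n - k < 0 := by
      by_contra hlt
      rw [not_lt] at hlt
      exact hn ⟨(n - k).toNat, by simp [Int.toNat_of_nonneg hlt]⟩
    rw [ModularCurve.ofPowerSeries_coeff_of_neg _ this, zero_mul]
  · refine (h.mul_left (q ^ k)).congr_fun ?_ |>.mono_left le_rfl
    intro n
    simp only [Function.comp_apply, HahnSeries.coeff_single_mul, one_mul, add_sub_cancel_right,
      HahnSeries.ofPowerSeries_apply_coeff]
    rw [zpow_add₀ hq, zpow_natCast]
    ring

theorem jqModC_eq_single_mul :
    ModularCurve.jqModC ℂ = HahnSeries.single (-1 : ℤ) (1 : ℂ) * HahnSeries.ofPowerSeries ℤ ℂ jNumC :=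
  rfl

/-- (B3) The analytic `j`-function `E₄³/Δ` is the sum of the Prelude's formal `q`-series `jq`
(with coefficients mapped to `ℂ`), for every `τ` in the upper half plane. -/
theorem hasSum_jFun (τ : ℍ) :
    HasSum (fun n : ℤ => (ModularCurve.jqModC ℂ).coeff n * Function.Periodic.qParam 1 τ ^ n)
      (jFun τ) := by
  have hq0 : Function.Periodic.qParam 1 (τ : ℂ) ≠ 0 := Function.Periodic.qParam_ne_zero _
  have := hasSum_laurent_of_hasSum_powerSeries jNumC (-1) hq0 (hasSum_qParam_mul_jFun τ)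
  rw [← jqModC_eq_single_mul] at this
  convert this using 1
  rw [zpow_neg_one, ← mul_assoc, inv_mul_cancel₀ hq0, one_mul]

/-- (B3) with the rational `jq` of the Prelude. -/
theorem hasSum_jFun_jq (τ : ℍ) :
    HasSum (fun n : ℤ => ((ModularCurve.jq.coeff n : ℚ) : ℂ) * Function.Periodic.qParam 1 τ ^ n)
      (jFun τ) := by
  refine (hasSum_jFun τ).congr_fun ?_ |>.mono_left le_rfl
  intro n
  congr 1
  rw [← ModularCurve.jqModC_rat, ← ModularCurve.map_jqModC (algebraMap ℚ ℂ)]
  simp

theorem jFun_mdifferentiable : MDiff jFun := by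
  have h1 : MDiff (fun z => E₄ z ^ 3) := (ModularFormClass.holo E₄).pow 3
  exact h1.div CuspForm.discriminant.holo' discriminant_ne_zero

theorem jFun_smul (γ : SL(2, ℤ)) (z : ℍ) : jFun (γ • z) = jFun z := by
  have hγ : (γ : GL (Fin 2) ℝ) ∈ 𝒮ℒ := ⟨γ, rfl⟩
  have e4 := SlashInvariantForm.slash_action_eqn'' E₄ hγ z
  have e12 := SlashInvariantForm.slash_action_eqn'' CuspForm.discriminant hγ z
  rw [← ModularGroup.sl_moeb] at e4 e12
  have hd : denom (γ : GL (Fin 2) ℝ) z ≠ 0 := denom_ne_zero _ z
  have hΔ := discriminant_ne_zero z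
  have e12' : ModularForm.discriminant (γ • z) =
      denom (γ : GL (Fin 2) ℝ) z ^ (12 : ℤ) * ModularForm.discriminant z := e12
  rw [jFun, jFun, e4, e12', mul_pow, ← zpow_natCast (denom (γ : GL (Fin 2) ℝ) z ^ (4 : ℤ)) 3,
    ← zpow_mul]
  have hz : denom (γ : GL (Fin 2) ℝ) z ^ (12 : ℤ) ≠ 0 := zpow_ne_zero _ hd
  norm_num
  field_simp

end Fermat.Agent.S28.H505
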